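/-
(MR) (THICK)(iii) : the characteristic-`p` NON-EXACTNESS lemma (prefix `mrca`, helper18).

For a power / Laurent series `y = ∑ b_m q^m` over a commutative ring of characteristic `p` and
`θ = q d/dq` (coefficientwise `n ↦ n • ·`) :

* `(y^(p-1) * θ y).coeff (p m) = m • b_m ^ p`     (`mrca_coeff_pow_theta`, `mrcaL_coeff_pow_theta`);
* `(θ R).coeff (p m) = 0`                          (`mrcaL_coeff_theta_mul`);
* hence `y^(p-1) * θ y + θ R = 0 → θ y = 0` over a reduced ring (`mrcaL_not_exact`) : the form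
  `y^(p-1) dy` is exact only if `dy = 0` (Cartier : `C(y^(p-1) dy) = dy`).

Proof of the first : in a `p`-torsion-free lift, `θ (Y^p) = p Y^(p-1) θ Y` (Leibniz), so
`(Y^(p-1) θ Y).coeff (p m) = m (Y^p).coeff (p m)`; reduce, and use Frobenius
`(y^p).coeff (p m) = b_m ^ p`.
-/
import Mathlib

set_option autoImplicit false

noncomputable section

namespace Fermat.Agent.MR

open PowerSeries

section PowerSeriesCore

/-- `θ = X d/dX` on power series -/
def mrcaTheta (R : Type*) [CommRing R] (f : R⟦X⟧) : R⟦X⟧ := X * d⁄dX R f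

theorem mrca_coeff_theta {R : Type*} [CommRing R] (f : R⟦X⟧) (n : ℕ) :
    coeff n (mrcaTheta R f) = (n : R) * coeff n f := by
  unfold mrcaTheta
  cases n with
  | zero => simp
  | succ n =>
    rw [coeff_succ_X_mul, coeff_derivative]
    push_cast
    ring

/-- Leibniz for `θ` on a `p`-th power -/
theorem mrca_theta_pow {R : Type*} [CommRing R] (f : R⟦X⟧) (n : ℕ) :
    mrcaTheta R (f ^ n) = (n : R⟦X⟧) * (f ^ (n - 1) * mrcaTheta R f) := by
  unfold mrcaTheta
  rw [Derivation.leibniz_pow]
  simp only [nsmul_eq_mul, smul_eq_mul]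
  ring

theorem mrca_map_theta {R S : Type*} [CommRing R] [CommRing S] (π : R →+* S) (f : R⟦X⟧) :
    PowerSeries.map π (mrcaTheta R f) = mrcaTheta S (PowerSeries.map π f) := by
  ext n
  rw [coeff_map, mrca_coeff_theta, mrca_coeff_theta, coeff_map, map_mul, map_natCast]

/-- in a `p`-torsion-free domain : `(F^(p-1) θ F).coeff (p m) = m (F^p).coeff (p m)` -/
theorem mrca_coeff_pow_theta_lift {R : Type*} [CommRing R] [IsDomain R] [CharZero R]
    (p : ℕ) (hp : p ≠ 0) (F : R⟦X⟧) (m : ℕ) :
    coeff (p * m) (F ^ (p - 1) * mrcaTheta R F) = (m : R) * coeff (p * m) (F ^ p) := by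
  have h1 := mrca_coeff_theta (F ^ p) (p * m)
  rw [mrca_theta_pow] at h1
  have h2 : coeff (p * m) ((p : R⟦X⟧) * (F ^ (p - 1) * mrcaTheta R F)) =
      (p : R) * coeff (p * m) (F ^ (p - 1) * mrcaTheta R F) := by
    have : (p : R⟦X⟧) = C (p : R) := by simp
    rw [this, coeff_C_mul]
  rw [h2] at h1
  have hp' : (p : R) ≠ 0 := by exact_mod_cast hp
  apply mul_left_cancel₀ hp'
  rw [h1]
  push_cast
  ring

/-- Frobenius on coefficients : `(f^p).coeff (p m) = (f.coeff m)^p` in characteristic `p` -/
theorem mrca_coeff_pow_char {k : Type*} [CommRing k] (p : ℕ) [hp : Fact p.Prime] [CharP k p]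
    (f : k⟦X⟧) (m : ℕ) : coeff (p * m) (f ^ p) = (coeff m f) ^ p := by
  have hp0 : p ≠ 0 := hp.out.ne_zero
  have h := MvPowerSeries.map_frobenius_expand (σ := Unit) (R := k) p hp0 (f := f)
  have h' : f ^ p = PowerSeries.map (frobenius k p) (PowerSeries.expand p hp0 f) := h.symm
  rw [h', coeff_map, coeff_expand_mul, frobenius_def]

/-- **the coefficient of `q^(p m)` in `f^(p-1) θ f` is `m (f_m)^p`**, power series over a ring of
characteristic `p`. -/
theorem mrca_coeff_pow_theta {k : Type*} [CommRing k] (p : ℕ) [hp : Fact p.Prime] [CharP k p]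
    (f : k⟦X⟧) (m : ℕ) :
    coeff (p * m) (f ^ (p - 1) * mrcaTheta k f) = (m : k) * (coeff m f) ^ p := by
  classical
  -- the universal lift
  let R := MvPolynomial k ℤ
  let π : R →+* k := MvPolynomial.eval₂Hom (Int.castRingHom k) id
  let F : R⟦X⟧ := PowerSeries.mk fun n => MvPolynomial.X (coeff n f)
  have hF : PowerSeries.map π F = f := by
    ext n
    rw [coeff_map, coeff_mk, MvPolynomial.eval₂Hom_X']
    rfl
  have h := mrca_coeff_pow_theta_lift p hp.out.ne_zero F m
  have e1 : PowerSeries.map π (F ^ (p - 1) * mrcaTheta R F) = f ^ (p - 1) * mrcaTheta k f := by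
    rw [map_mul, map_pow, mrca_map_theta, hF]
  have e2 : PowerSeries.map π (F ^ p) = f ^ p := by rw [map_pow, hF]
  have h2 := congrArg π h
  rw [← coeff_map, e1, map_mul π, map_natCast, ← coeff_map, e2, mrca_coeff_pow_char] at h2
  exact h2

end PowerSeriesCore

section Laurent

open HahnSeries

variable (k : Type*) [CommRing k]

/-- `θ = q d/dq` on Laurent series, coefficientwise -/
def mrcaThetaL (y : LaurentSeries k) : LaurentSeries k where
  coeff n := (n : k) * y.coeff n
  isPWO_support' := y.isPWO_support.mono (fun n hn => by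
    simp only [Function.mem_support, ne_eq] at hn ⊢
    intro h
    exact hn (by rw [h, mul_zero]))

@[simp]
theorem mrcaThetaL_coeff (y : LaurentSeries k) (n : ℤ) :
    (mrcaThetaL k y).coeff n = (n : k) * y.coeff n := rfl

theorem mrcaThetaL_add (y z : LaurentSeries k) :
    mrcaThetaL k (y + z) = mrcaThetaL k y + mrcaThetaL k z := by
  ext n
  simp only [mrcaThetaL_coeff, coeff_add]
  ring

theorem mrcaThetaL_ofPowerSeries (f : k⟦X⟧) :
    mrcaThetaL k (ofPowerSeries ℤ k f) = ofPowerSeries ℤ k (mrcaTheta k f) := by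
  ext n
  rw [mrcaThetaL_coeff, PowerSeries.coeff_coe, PowerSeries.coeff_coe]
  split_ifs with h
  · rw [mul_zero]
  · rw [mrca_coeff_theta]
    congr 1
    have : ((n.natAbs : ℤ) : k) = (n : k) := by
      rw [Int.natAbs_of_nonneg (not_lt.1 h)]
    rw [← this]
    simp

theorem mrcaThetaL_single_mul (a : ℤ) (g : LaurentSeries k) :
    mrcaThetaL k (single a 1 * g) =
      single a (a : k) * g + single a 1 * mrcaThetaL k g := by
  ext n
  simp only [mrcaThetaL_coeff, coeff_add, coeff_single_mul, one_mul]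
  have : (n : k) = (a : k) + ((n - a : ℤ) : k) := by push_cast; ring
  rw [this]
  ring

/-- `(θ R).coeff (p m) = 0` in characteristic `p` -/
theorem mrcaL_coeff_theta_mul (p : ℕ) [CharP k p] (R : LaurentSeries k) (m : ℤ) :
    (mrcaThetaL k R).coeff (p * m) = 0 := by
  rw [mrcaThetaL_coeff]
  push_cast
  rw [CharP.cast_eq_zero k p, zero_mul, zero_mul]

/-- **the coefficient of `q^(p m)` in `y^(p-1) θ y` is `m (y_m)^p`**, Laurent series over a ring of
characteristic `p`. -/
theorem mrcaL_coeff_pow_theta (p : ℕ) [hp : Fact p.Prime] [CharP k p]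
    (y : LaurentSeries k) (m : ℤ) :
    (y ^ (p - 1) * mrcaThetaL k y).coeff (p * m) = (m : k) * (y.coeff m) ^ p := by
  set a : ℤ := y.order with ha
  set f : k⟦X⟧ := y.powerSeriesPart with hf
  have hy : single a (1 : k) * ofPowerSeries ℤ k f = y :=
    LaurentSeries.single_order_mul_powerSeriesPart y
  have hp1 : p - 1 + 1 = p := Nat.sub_add_cancel hp.out.one_le
  have hθ : mrcaThetaL k y =
      single a (a : k) * ofPowerSeries ℤ k f +
        single a (1 : k) * ofPowerSeries ℤ k (mrcaTheta k f) := by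
    conv_lhs => rw [← hy]
    rw [mrcaThetaL_single_mul, mrcaThetaL_ofPowerSeries]
  have hpow : y ^ (p - 1) =
      single (((p - 1 : ℕ) : ℤ) * a) (1 : k) * ofPowerSeries ℤ k (f ^ (p - 1)) := by
    conv_lhs => rw [← hy]
    rw [mul_pow, single_pow, one_pow, map_pow, nsmul_eq_mul]
  have hpa : ((p - 1 : ℕ) : ℤ) * a + a = (p : ℤ) * a := by
    have : ((p - 1 : ℕ) : ℤ) = (p : ℤ) - 1 := by
      rw [Nat.cast_sub hp.out.one_le]; simp
    rw [this]; ring
  -- the shape of `y^(p-1) θ y`
  have key : y ^ (p - 1) * mrcaThetaL k y =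
      single ((p : ℤ) * a) (a : k) * ofPowerSeries ℤ k (f ^ p) +
        single ((p : ℤ) * a) (1 : k) * ofPowerSeries ℤ k (f ^ (p - 1) * mrcaTheta k f) := by
    rw [hθ, hpow, mul_add]
    congr 1
    · calc single (((p - 1 : ℕ) : ℤ) * a) (1 : k) * ofPowerSeries ℤ k (f ^ (p - 1)) *
            (single a (a : k) * ofPowerSeries ℤ k f)
          = (single (((p - 1 : ℕ) : ℤ) * a) (1 : k) * single a (a : k)) *
              (ofPowerSeries ℤ k (f ^ (p - 1)) * ofPowerSeries ℤ k f) := by ring
        _ = _ := by rw [single_mul_single, one_mul, hpa, ← map_mul, ← pow_succ, hp1]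
    · calc single (((p - 1 : ℕ) : ℤ) * a) (1 : k) * ofPowerSeries ℤ k (f ^ (p - 1)) *
            (single a (1 : k) * ofPowerSeries ℤ k (mrcaTheta k f))
          = (single (((p - 1 : ℕ) : ℤ) * a) (1 : k) * single a (1 : k)) *
              (ofPowerSeries ℤ k (f ^ (p - 1)) * ofPowerSeries ℤ k (mrcaTheta k f)) := by ring
        _ = _ := by rw [single_mul_single, one_mul, hpa, ← map_mul]
  rw [key, coeff_add, coeff_single_mul, coeff_single_mul, one_mul, PowerSeries.coeff_coe,
    PowerSeries.coeff_coe]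
  have hsub : (p : ℤ) * m - (p : ℤ) * a = (p : ℤ) * (m - a) := by ring
  rw [hsub]
  have hppos : (0 : ℤ) < p := by exact_mod_cast hp.out.pos
  split_ifs with h
  · -- `m < a` : both sides vanish
    have hma : m < a := by
      by_contra hcon
      have : 0 ≤ (p : ℤ) * (m - a) := mul_nonneg hppos.le (by linarith)
      linarith
    rw [coeff_eq_zero_of_lt_order hma, zero_pow hp.out.ne_zero, mul_zero, mul_zero, add_zero]
  · have hma : 0 ≤ m - a := by
      by_contra hcon
      have : (p : ℤ) * (m - a) < 0 := mul_neg_of_pos_of_neg hppos (by linarith)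
      exact h this
    obtain ⟨j, hj⟩ := Int.eq_ofNat_of_zero_le hma
    have hnat : ((p : ℤ) * (m - a)).natAbs = p * j := by
      rw [hj, ← Nat.cast_mul, Int.natAbs_natCast]
    rw [hnat, mrca_coeff_pow_char, mrca_coeff_pow_theta]
    have hcoeff : coeff j f = y.coeff m := by
      rw [hf, LaurentSeries.powerSeriesPart_coeff, ← hj]
      congr 1
      ring
    rw [hcoeff]
    have hm : (m : k) = (a : k) + (j : k) := by
      have : m = a + j := by linarith
      rw [this]; push_cast; ring
    rw [hm]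
    ring

/-- **NON-EXACTNESS** : over a reduced ring of characteristic `p`, if `y^(p-1) θ y + θ R = 0` then
`θ y = 0` (i.e. `y` is a series in `q^p`). -/
theorem mrcaL_not_exact [IsReduced k] (p : ℕ) [hp : Fact p.Prime] [CharP k p]
    (y R : LaurentSeries k) (h : y ^ (p - 1) * mrcaThetaL k y + mrcaThetaL k R = 0) :
    mrcaThetaL k y = 0 := by
  ext n
  rw [mrcaThetaL_coeff, coeff_zero]
  by_cases hn : (p : ℤ) ∣ n
  · obtain ⟨m, rfl⟩ := hn
    push_cast
    rw [CharP.cast_eq_zero k p, zero_mul, zero_mul]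
  · -- `n b_n = 0` from the coefficient at `p n` : `n b_n^p = 0`
    have h1 := congrArg (fun z => z.coeff ((p : ℤ) * n)) h
    simp only [coeff_add, coeff_zero] at h1
    rw [mrcaL_coeff_pow_theta, mrcaL_coeff_theta_mul, add_zero] at h1
    -- `(n b_n)^p = n^(p-1) * (n b_n^p) = 0`
    have h2 : ((n : k) * y.coeff n) ^ p = 0 := by
      have hp1 : p - 1 + 1 = p := Nat.sub_add_cancel hp.out.one_le
      calc ((n : k) * y.coeff n) ^ p = (n : k) ^ (p - 1) * ((n : k) * (y.coeff n) ^ p) := by
            rw [mul_pow]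
            have : (n : k) ^ p = (n : k) ^ (p - 1) * (n : k) := by
              conv_lhs => rw [← hp1, pow_succ]
            rw [this]
            ring
        _ = 0 := by rw [h1, mul_zero]
    exact IsReduced.eq_zero _ ⟨p, h2⟩

/-- the same for ANY map `θ'` with the coefficient property of `q d/dq` -/
theorem mrcaL_not_exact' [IsReduced k] (p : ℕ) [hp : Fact p.Prime] [CharP k p]
    (θ' : LaurentSeries k → LaurentSeries k)
    (hθ' : ∀ z n, (θ' z).coeff n = (n : k) * z.coeff n)
    (y R : LaurentSeries k) (h : y ^ (p - 1) * θ' y + θ' R = 0) : θ' y = 0 := by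
  have e : ∀ z, θ' z = mrcaThetaL k z := fun z => by
    ext n
    rw [hθ', mrcaThetaL_coeff]
  rw [e] at h ⊢
  rw [e] at h
  exact mrcaL_not_exact k p y R h

/-- contrapositive form : a series with `θ y ≠ 0` has `y^(p-1) θ y` NOT exact, not even up to
any `θ R` -/
theorem mrcaL_ne_zero [IsReduced k] (p : ℕ) [hp : Fact p.Prime] [CharP k p]
    (y R : LaurentSeries k) (hy : mrcaThetaL k y ≠ 0) :
    y ^ (p - 1) * mrcaThetaL k y + mrcaThetaL k R ≠ 0 :=
  fun h => hy (mrcaL_not_exact k p y R h)

/-- `θ y = 0` iff `y` is a series in `q^p` (domain of characteristic `p`) -/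
theorem mrcaThetaL_eq_zero_iff [IsDomain k] (p : ℕ) [CharP k p]
    (y : LaurentSeries k) :
    mrcaThetaL k y = 0 ↔ ∀ n : ℤ, ¬ (p : ℤ) ∣ n → y.coeff n = 0 := by
  constructor
  · intro h n hn
    have h1 := congrArg (fun z => z.coeff n) h
    simp only [mrcaThetaL_coeff, coeff_zero] at h1
    rcases mul_eq_zero.1 h1 with h2 | h2
    · exact absurd ((CharP.intCast_eq_zero_iff k p n).1 h2) hn
    · exact h2
  · intro h
    ext n
    rw [mrcaThetaL_coeff, coeff_zero]
    by_cases hn : (p : ℤ) ∣ n
    · rw [(CharP.intCast_eq_zero_iff k p n).2 hn, zero_mul]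
    · rw [h n hn, mul_zero]

/-- Leibniz on power series, for `θ = X d/dX` -/
theorem mrcaTheta_mul (f g : k⟦X⟧) :
    mrcaTheta k (f * g) = mrcaTheta k f * g + f * mrcaTheta k g := by
  unfold mrcaTheta
  rw [Derivation.leibniz]
  simp only [smul_eq_mul]
  ring

/-- **Leibniz for `θ = q d/dq` on Laurent series** -/
theorem mrcaThetaL_mul (y z : LaurentSeries k) :
    mrcaThetaL k (y * z) = mrcaThetaL k y * z + y * mrcaThetaL k z := by
  have hy : single y.order (1 : k) * ofPowerSeries ℤ k y.powerSeriesPart = y :=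
    LaurentSeries.single_order_mul_powerSeriesPart y
  have hz : single z.order (1 : k) * ofPowerSeries ℤ k z.powerSeriesPart = z :=
    LaurentSeries.single_order_mul_powerSeriesPart z
  set a := y.order
  set b := z.order
  set f := y.powerSeriesPart
  set g := z.powerSeriesPart
  have hyz : y * z = single (a + b) (1 : k) * ofPowerSeries ℤ k (f * g) := by
    rw [← hy, ← hz, map_mul]
    calc single a (1 : k) * ofPowerSeries ℤ k f * (single b (1 : k) * ofPowerSeries ℤ k g)
        = (single a (1 : k) * single b (1 : k)) *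
            (ofPowerSeries ℤ k f * ofPowerSeries ℤ k g) := by ring
      _ = _ := by rw [single_mul_single, one_mul]
  have hθy : mrcaThetaL k y = single a (a : k) * ofPowerSeries ℤ k f +
      single a (1 : k) * ofPowerSeries ℤ k (mrcaTheta k f) := by
    conv_lhs => rw [← hy]
    rw [mrcaThetaL_single_mul, mrcaThetaL_ofPowerSeries]
  have hθz : mrcaThetaL k z = single b (b : k) * ofPowerSeries ℤ k g +
      single b (1 : k) * ofPowerSeries ℤ k (mrcaTheta k g) := by
    conv_lhs => rw [← hz]
    rw [mrcaThetaL_single_mul, mrcaThetaL_ofPowerSeries]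
  have hs : ∀ (c d : ℤ) (r s : k), single c r * single d s = single (c + d) (r * s) :=
    fun c d r s => single_mul_single
  have hab : single (a + b) (((a + b : ℤ)) : k) =
      single a (a : k) * single b (1 : k) + single a (1 : k) * single b (b : k) := by
    rw [hs, hs, mul_one, one_mul]
    ext n
    rw [coeff_add, coeff_single, coeff_single, coeff_single]
    split_ifs
    · push_cast
      rfl
    · rw [add_zero]
  rw [hyz, mrcaThetaL_single_mul, mrcaThetaL_ofPowerSeries, mrcaTheta_mul, hab, hθy, hθz]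
  conv_rhs => rw [← hy, ← hz]
  have h1 : single (a + b) (1 : k) = single a (1 : k) * single b (1 : k) := by
    rw [hs, one_mul]
  rw [h1, map_add, map_mul, map_mul, map_mul]
  ring

end Laurent

end Fermat.Agent.MR
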