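/-
(MR) (THICK)(iii) : the non-exactness lemma of `MR/Cartier.lean` on main's `θ = sqvtTheta`
(Program Q, `SQ/Val/Theta.lean`) and at `y = j̄` (prefix `mrca`, helper18).
-/
import Mathlib
import Fermat.Agent.MR.Cartier
import Fermat.Agent.SQ.Val.Theta

set_option autoImplicit false

noncomputable section

namespace Fermat.Agent.MR

open Fermat.Agent.SQ ModularCurve

variable (k : Type*) [CommRing k]

/-- main's `θ` is the coefficientwise one -/
theorem mrca_sqvt_eq (y : LaurentSeries k) : sqvtTheta k y = mrcaThetaL k y := by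
  ext n
  rw [sqvtTheta_coeff, mrcaThetaL_coeff]

/-- the coefficient of `q^(p m)` in `y^(p-1) θ y`, `θ = sqvtTheta` -/
theorem mrca_sqvt_coeff_pow_theta (p : ℕ) [Fact p.Prime] [CharP k p] (y : LaurentSeries k)
    (m : ℤ) : (y ^ (p - 1) * sqvtTheta k y).coeff (p * m) = (m : k) * (y.coeff m) ^ p := by
  rw [mrca_sqvt_eq]
  exact mrcaL_coeff_pow_theta k p y m

/-- **non-exactness on `sqvtTheta`** -/
theorem mrca_sqvt_not_exact [IsReduced k] (p : ℕ) [Fact p.Prime] [CharP k p]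
    (y R : LaurentSeries k) (h : y ^ (p - 1) * sqvtTheta k y + sqvtTheta k R = 0) :
    sqvtTheta k y = 0 :=
  mrcaL_not_exact' k p (sqvtTheta k) (fun z n => sqvtTheta_coeff k z n) y R h

theorem mrca_sqvt_ne_zero [IsReduced k] (p : ℕ) [Fact p.Prime] [CharP k p]
    (y R : LaurentSeries k) (hy : sqvtTheta k y ≠ 0) :
    y ^ (p - 1) * sqvtTheta k y + sqvtTheta k R ≠ 0 :=
  fun h => hy (mrca_sqvt_not_exact k p y R h)

/-- **at `y = j̄`** : `j̄^(p-1) θ j̄ + θ R ≠ 0` for EVERY `R ∈ k((q))` (`k` reduced, nontrivial, of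
characteristic `p`) -/
theorem mrca_jq_ne_zero [IsReduced k] [Nontrivial k] (p : ℕ) [Fact p.Prime] [CharP k p]
    (R : LaurentSeries k) :
    jqModC k ^ (p - 1) * sqvtTheta k (jqModC k) + sqvtTheta k R ≠ 0 :=
  mrca_sqvt_ne_zero k p _ R (sqvtTheta_jq_isUnit k).ne_zero

end Fermat.Agent.MR
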