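import Fermat.Agent.TT.Spec
import Fermat.Prelude.Def_FreyPackage_IsConductorLevel
import Fermat.Prelude.Def_FLTPrelim_ModularRep
import Fermat.Prelude.Def_ModularCurve_HeckeModule
import Fermat.Prelude.Def_ModularCurve_ReductionModL
import Fermat.Agent.FF.InertiaRing
import Fermat.Agent.SS.Val.ModFrob2

/-!
# PROGRAM MR (S44: Mazur-Ribet for the Frey package): top-level interface file

Owner: helper16 (program manager).  Namespace `Fermat.Agent.MR`, prefix `mra` / `Mra`.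

Notation: `P` a Frey package, `p := P.p ≥ 5`, `N = M * p` a conductor level (`p ∤ M`), `𝔸` a
valuation ring of `ℚ̄` over `p`, `I := ffI 𝔸` its inertia group, `k := ResidueField 𝔸`,
`E[p] := MraEp P` the `p`-torsion of the Frey curve over `ℚ̄` with its `G_ℚ`-action.

The FIVE top-level leaves (each a `Prop`, so that producer and consumer share ONE literal):

* `MraInSpec`     (block `mri`) : transfer-in, `ModularRepOfLevel N` + irreducible ⟹ a `G_ℚ`-stable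
  Hecke-eigen copy `V̄ ≅ E[p]` inside `J₀(N)[p]` (`MraVbar`);
* `MraNonEisSpec` (block `mri`) : irreducible ⟹ some good `ℓ` with `a_ℓ ≢ ℓ + 1 (mod p)`;
* `MraESpec`      (block `mre`) : the E-side at `p ∣ abc`: the shape `(ε *; 0 1)` of `I` on `E[p]`
  (`MraShape`) and the first-order ramification datum **(P1)** (`MraP1`) of the field cut out by `E[p]`;
* `MraJSpec`      (blocks `mrg mrn mrk mrs mrr mrt mrm mrp mrh`) : the J-side: `V̄` with shape and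
  (P1), not Eisenstein ⟹ `MraEigenFun`: a non-trivial Kummer function `ψ` of `F_k(M)` which is an
  eigenfunction of the special-fibre Hecke operators `T̄_ℓ = N_{α_k} ∘ β_k` ON FUNCTIONS, modulo
  constants and `p`-th powers, with eigenvalues `a_ℓ`;
* `MraOutSpec`    (block `mro`) : transfer-out: `MraEigenFun` ⟹ `ModularRepOfLevel M`.

No Hecke operator on CLASSES in characteristic `p` is ever defined.  `MR/Top.lean` proves S44 from
the five leaves.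
-/

set_option autoImplicit false

noncomputable section

namespace Fermat.Agent.MR

open Fermat.Agent.FF ModularCurve
open WeierstrassCurve WeierstrassCurve.Affine WeierstrassCurve.Affine.Point

/-- `E[p](ℚ̄)` of the Frey curve, with its `G_ℚ`-action. -/
abbrev MraEp (P : FreyPackage) : Type :=
  ↥(Submodule.torsionBy ℤ (P.freyCurve⁄FfQb).Point P.p)

/-- the residue field of the place `𝔸`. -/
abbrev MraK (𝔸 : ValuationSubring FfQb) : Type := IsLocalRing.ResidueField ↥𝔸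

/-- `I₀ := ker (ε | I)`: the elements of the inertia group fixing the `p`-th roots of unity. -/
def mraI0 (p : ℕ) (𝔸 : ValuationSubring FfQb) : Subgroup FfGal where
  carrier := {σ | σ ∈ ffI 𝔸 ∧ ∀ ζ : FfQb, ζ ^ p = 1 → σ ζ = ζ}
  one_mem' := ⟨Subgroup.one_mem _, fun _ _ => rfl⟩
  mul_mem' := by
    rintro σ τ ⟨hσ, hσ'⟩ ⟨hτ, hτ'⟩
    refine ⟨Subgroup.mul_mem _ hσ hτ, fun ζ hζ => ?_⟩
    rw [AlgEquiv.mul_apply, hτ' ζ hζ, hσ' ζ hζ]
  inv_mem' := by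
    rintro σ ⟨hσ, hσ'⟩
    refine ⟨Subgroup.inv_mem _ hσ, fun ζ hζ => ?_⟩
    have h := hσ' ζ hζ
    calc σ⁻¹ ζ = σ⁻¹ (σ ζ) := by rw [h]
      _ = ζ := by rw [← AlgEquiv.mul_apply, inv_mul_cancel, AlgEquiv.one_apply]

/-- `y` is fixed by the subgroup `H` (`y ∈ L := ℚ̄^H`). -/
def MraFix (H : Subgroup FfGal) (y : FfQb) : Prop := ∀ h ∈ H, h y = y

/-- **(P1) at `σ`**, valuation language (`v := 𝔸.valuation`, multiplicative; `H ≤ I₀` the pointwise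
stabiliser in `I` of the representation, `L := ℚ̄^H`, `σ ∈ I₀ ∖ H`): `π` is a uniformiser of `L`
(`vg`, `ram`: `e(L/ℚ_p^nr) = p (p - 1)`), `c` a unit of `W = 𝔸^I`, and
`σ π = π (1 + c π) mod π³` (`pic`: lower ramification break `1`), `σ = id mod π²` on `𝔸 ∩ L` (`triv`),
`σ y = y (1 + c n π) mod y π²` for `v y = v π ^ n` (`move`).  Same fields as helper10's `MreP1`. -/
structure MraP1At (p : ℕ) (𝔸 : ValuationSubring FfQb) (H : Subgroup FfGal) (σ : FfGal)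
    (π c : FfQb) : Prop where
  fix : MraFix H π
  ne : π ≠ 0
  lt : 𝔸.valuation π < 1
  vg : ∀ y : FfQb, MraFix H y → y ≠ 0 → ∃ n : ℤ, 𝔸.valuation y = 𝔸.valuation π ^ n
  ram : 𝔸.valuation π ^ (p * (p - 1)) = 𝔸.valuation (p : FfQb)
  cW : c ∈ ffiwRing 𝔸
  cu : 𝔸.valuation c = 1
  pic : 𝔸.valuation (σ π - π * (1 + c * π)) ≤ 𝔸.valuation π ^ 3
  triv : ∀ y : FfQb, MraFix H y → y ∈ 𝔸 → 𝔸.valuation (σ y - y) ≤ 𝔸.valuation π ^ 2
  move : ∀ y : FfQb, MraFix H y → ∀ n : ℤ, 𝔸.valuation y = 𝔸.valuation π ^ n →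
    𝔸.valuation (σ y - y * (1 + c * (n : FfQb) * π)) ≤ 𝔸.valuation y * 𝔸.valuation π ^ 2

/-- **(P1)** for the subgroup `H ≤ I`: every `σ ∈ I₀ ∖ H` has a (P1)-datum.  (Vacuous in the split
case `I₀ ⊆ H`, where `L = K₀ = ℚ_p^nr(ζ_p)`; the J-side treats that case separately.) -/
def MraP1 (p : ℕ) (𝔸 : ValuationSubring FfQb) (H : Subgroup FfGal) : Prop :=
  ∀ σ ∈ mraI0 p 𝔸, σ ∉ H → ∃ π c : FfQb, MraP1At p 𝔸 H σ π c

/-- the shape `(ε *; 0 1)` of the inertia group on a subgroup `V` (of order `p²`) of a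
`G_ℚ`-module: a subgroup `V' ≤ V` of order `p` with `(σ - 1) V ⊆ V'` for `σ ∈ I`, on which `I` acts
through the cyclotomic character (`σ ζ = ζ ^ a` on `μ_p` ⟹ `σ x = a x` on `V'`). -/
def MraShape (p : ℕ) (𝔸 : ValuationSubring FfQb) {X : Type} [AddCommGroup X]
    [DistribMulAction FfGal X] (V : AddSubgroup X) : Prop :=
  Nat.card ↥V = p ^ 2 ∧
  ∃ V' : AddSubgroup X, V' ≤ V ∧ Nat.card ↥V' = p ∧
    (∀ σ ∈ ffI 𝔸, ∀ x ∈ V, σ • x - x ∈ V') ∧
    (∀ σ ∈ ffI 𝔸, ∀ a : ℕ, (∀ ζ : FfQb, ζ ^ p = 1 → σ ζ = ζ ^ a) → ∀ x ∈ V', σ • x = a • x)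

/-- the pointwise stabiliser of a subgroup of a `G_ℚ`-module. -/
def mraStab {X : Type} [AddCommGroup X] [DistribMulAction FfGal X] (V : AddSubgroup X) :
    Subgroup FfGal where
  carrier := {σ | ∀ x ∈ V, σ • x = x}
  one_mem' := fun x _ => one_smul _ x
  mul_mem' := by
    intro σ τ hσ hτ x hx
    rw [mul_smul, hτ x hx, hσ x hx]
  inv_mem' := by
    intro σ hσ x hx
    calc σ⁻¹ • x = σ⁻¹ • (σ • x) := by rw [hσ x hx]
      _ = x := by rw [← mul_smul, inv_mul_cancel, one_smul]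

/-- `H := Stab_I(V)`: the pointwise stabiliser of `V` in the inertia group. -/
def mraH (𝔸 : ValuationSubring FfQb) {X : Type} [AddCommGroup X] [DistribMulAction FfGal X]
    (V : AddSubgroup X) : Subgroup FfGal := mraStab V ⊓ ffI 𝔸

/-- **the datum `V̄`**: a `G_ℚ`-stable subgroup of `J₀(N)[p]`, `G_ℚ`-isomorphic to `E[p]`, on which
`T_ℓ` acts as `a_ℓ` for the good primes `ℓ ∤ N p` of the integral model `W`. -/
structure MraVbar (P : FreyPackage) (N : ℕ) [NeZero N] (W : WeierstrassCurve ℤ) where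
  V : AddSubgroup (JZero N)
  tors : ∀ x ∈ V, P.p • x = 0
  stable : ∀ σ : FfGal, ∀ x ∈ V, σ • x ∈ V
  iso : ↥V ≃+ MraEp P
  iso_smul : ∀ (σ : FfGal) (x : ↥V),
    iso ⟨σ • (x : JZero N), stable σ x x.2⟩ = σ • iso x
  eigen : ∀ ℓ : Nat.Primes, W.IsGoodPrimeFor ℓ → ¬ (ℓ : ℕ) ∣ N → (ℓ : ℕ) ≠ P.p →
    ∀ x ∈ V, heckeOperatorBar N ℓ x = W.apOfModel ℓ • x

/-- **(IN)**, block `mri`. -/
def MraInSpec : Prop :=
  ∀ (P : FreyPackage) (N : ℕ) [NeZero N], P.IsConductorLevel N → P.p ∣ N →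
    GaloisRepIsIrreducible (K := FfQb) ℚ P.freyCurve P.p →
    ∀ (f : CuspForm (CongruenceSubgroup.Gamma0 N) 2) (W : WeierstrassCurve ℤ)
      (𝔪 : Ideal (integralClosure ℤ ℂ)),
      f.IsNormalizedEigenform → W.IsIntegralModelOf P.freyCurve → 𝔪.IsMaximal →
      (P.p : integralClosure ℤ ℂ) ∈ 𝔪 →
      (∀ ℓ : ℕ, ℓ.Prime → W.IsGoodPrimeFor ℓ → ¬ ℓ ∣ N → ℓ ≠ P.p →
        ∃ a : integralClosure ℤ ℂ, (a : ℂ) = ModularFormClass.qCoeff f ℓ ∧
          a - ((W.apOfModel ℓ : ℤ) : integralClosure ℤ ℂ) ∈ 𝔪) →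
      Nonempty (MraVbar P N W)

/-- **(NON-EIS)**, block `mri`: an irreducible `E[p]` is not Eisenstein. -/
def MraNonEisSpec : Prop :=
  ∀ (P : FreyPackage) (N : ℕ) (W : WeierstrassCurve ℤ), 0 < N →
    W.IsIntegralModelOf P.freyCurve →
    GaloisRepIsIrreducible (K := FfQb) ℚ P.freyCurve P.p →
    ∃ ℓ : Nat.Primes, W.IsGoodPrimeFor ℓ ∧ ¬ (ℓ : ℕ) ∣ N ∧ (ℓ : ℕ) ≠ P.p ∧
      ¬ (P.p : ℤ) ∣ W.apOfModel ℓ - ((ℓ : ℕ) + 1 : ℤ)

/-- **(E)**, block `mre`: at `p ∣ abc` the inertia group at `p` acts on `E[p]` through the shape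
`(ε *; 0 1)`, and the field cut out by `E[p]` has (P1). -/
def MraESpec : Prop :=
  ∀ (P : FreyPackage), (P.p : ℤ) ∣ P.a * P.b * P.c →
    ∀ 𝔸 : ValuationSubring FfQb, 𝔸.LiesOverPrime P.p →
      MraShape P.p 𝔸 (⊤ : AddSubgroup (MraEp P)) ∧
      MraP1 P.p 𝔸 (mraH 𝔸 (⊤ : AddSubgroup (MraEp P)))

/-- the special-fibre Hecke operator ON FUNCTIONS: `T̄_ℓ ψ := N_{α_k} (β_k ψ)`,
`α_k = ssvmdIncl k M ℓ` (inclusion `F_k(M) → F_k(M ℓ)`), `β_k = ssvmfPhi k M ℓ` (`q ↦ q ^ ℓ`), the norm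
taken for `algebraAlong α_k` (`= mrhNorm α_k (β_k ψ)` of block `mrh`). -/
def mraTbar (k : Type) [Field k] (M ℓ : ℕ) [NeZero M] [NeZero ℓ]
    (ψ : modularFunctionFieldFullC k M) : modularFunctionFieldFullC k M :=
  letI := AlgebraicCurve.algebraAlong (Fermat.Agent.SS.ssvmdIncl k M ℓ)
  Algebra.norm (modularFunctionFieldFullC k M) (Fermat.Agent.SS.ssvmfPhi k M ℓ ψ)

/-- **the seam J-side → transfer-out (FUNCTION FORM, no Hecke operator on classes in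
characteristic `p`)**: a Kummer function `ψ` of `F_k(M)` (`p ∣ ord_Q ψ` at every place), not a
constant times a `p`-th power (its class `[div ψ / p] ∈ Pic⁰(F_k(M))[p]` is non-zero), which is an
eigenfunction of every `T̄_ℓ` modulo constants and `p`-th powers, with eigenvalue `a_ℓ`. -/
def MraEigenFun (P : FreyPackage) (M : ℕ) [NeZero M] (W : WeierstrassCurve ℤ)
    (𝔸 : ValuationSubring FfQb) : Prop :=
  ∃ ψ : modularFunctionFieldFullC (MraK 𝔸) M, ψ ≠ 0 ∧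
    (∀ Q : AlgebraicCurve.Place (MraK 𝔸) (modularFunctionFieldFullC (MraK 𝔸) M),
      (P.p : ℤ) ∣ Q.ord ψ) ∧
    (¬ ∃ (c : MraK 𝔸) (h : modularFunctionFieldFullC (MraK 𝔸) M),
      ψ = algebraMap (MraK 𝔸) _ c * h ^ P.p) ∧
    ∀ ℓ : Nat.Primes, W.IsGoodPrimeFor ℓ → ¬ (ℓ : ℕ) ∣ M * P.p → (ℓ : ℕ) ≠ P.p →
      ∃ (c : MraK 𝔸) (h : modularFunctionFieldFullC (MraK 𝔸) M),
        (haveI : NeZero (ℓ : ℕ) := ⟨ℓ.2.ne_zero⟩; mraTbar (MraK 𝔸) M ℓ ψ) =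
          algebraMap (MraK 𝔸) _ c * ψ ^ (W.apOfModel ℓ) * h ^ P.p

/-- **(J)**: the J-side (blocks `mrg mrn mrk mrs mrr mrt mrm mrp mrh`). -/
def MraJSpec : Prop :=
  ∀ (P : FreyPackage) (M : ℕ) [NeZero M] [NeZero (M * P.p)] (W : WeierstrassCurve ℤ),
    ¬ P.p ∣ M → Squarefree (M * P.p) →
    ∀ (Vb : MraVbar P (M * P.p) W) (𝔸 : ValuationSubring FfQb), 𝔸.LiesOverPrime P.p →
      MraShape P.p 𝔸 Vb.V → MraP1 P.p 𝔸 (mraH 𝔸 Vb.V) →
      (∃ ℓ : Nat.Primes, W.IsGoodPrimeFor ℓ ∧ ¬ (ℓ : ℕ) ∣ M * P.p ∧ (ℓ : ℕ) ≠ P.p ∧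
        ¬ (P.p : ℤ) ∣ W.apOfModel ℓ - ((ℓ : ℕ) + 1 : ℤ)) →
      MraEigenFun P M W 𝔸

/-- **(OUT)**, block `mro`. -/
def MraOutSpec : Prop :=
  ∀ (P : FreyPackage) (M : ℕ) [NeZero M] (W : WeierstrassCurve ℤ),
    ¬ P.p ∣ M → W.IsIntegralModelOf P.freyCurve →
    ∀ 𝔸 : ValuationSubring FfQb, 𝔸.LiesOverPrime P.p →
      MraEigenFun P M W 𝔸 → P.ModularRepOfLevel M

end Fermat.Agent.MR
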