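import Fermat.Agent.MR.Top
import Fermat.Agent.MR.In.Main
import Fermat.Agent.MR.ESide.ETop
import Fermat.Agent.MR.Out.RedMain
import Fermat.Agent.MR.M.LeafPlug
import Fermat.Agent.MR.Kron.GermClosed
import Fermat.Agent.MR.M.JClosed

/-!
# PROGRAM MR (S44): CLOSING FILE (deputy integrator helper15, prefix `mrcl`)

Four of the five top-level Props of `MR/Spec.lean` are closed: `mri_in`, `mri_nonEis` (helper15),
`mrex_E` (helper13, helper10, helper27, helper9, helper4), `mror_outSpec` (helper5, helper18,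
helper22, helper4, helper14, helper6, helper15).  The residual hypothesis is the J-side:

* `mrcl_S44_of_J     : MraJSpec → [S44]`;
* `mrcl_S44_of_leaf  : (∀ M p 𝔸 hpM h𝔸, 5 ≤ p → MrmLeafSpec M 𝔸 hpM h𝔸) → [S44]`
  (helper26's `mrm_JSpec_of_leaf`: `MrhwCommSpec`, Ker/Gam/Norm are closed);
* `mrcl_S44_of_three : (∀ M p 𝔸 hpM h𝔸 (h5 : 5 ≤ p) τ' hτ', (∃ E, MrmIsThick ..) ∧ MrmThickLeaf .. ∧
  MrmBalanceLeaf ..) → [S44]` (helper26's `mrm_JSpec_of_three`: (DISC), (W1) are closed at the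
  `j`-atlas).
-/

set_option autoImplicit false

noncomputable section

namespace Fermat.Agent.MR

open Fermat.Agent.FF Fermat.Agent.G ModularCurve
open WeierstrassCurve WeierstrassCurve.Affine WeierstrassCurve.Affine.Point

local notation "Qb" => AlgebraicClosure ℚ

/-- **S44 from the J-side alone.** -/
theorem mrcl_S44_of_J (hJ : MraJSpec)
    (P : FreyPackage) {N : ℕ} (hcond : P.IsConductorLevel N) (hpN : P.p ∣ N)
    (hirr : GaloisRepIsIrreducible (K := AlgebraicClosure ℚ) ℚ P.freyCurve P.p)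
    (hmod : P.ModularRepOfLevel N) :
    ∃ M : ℕ, M ∣ N ∧ ¬ P.p ∣ M ∧ P.ModularRepOfLevel M :=
  mra_S44 mri_in mri_nonEis mrex_E hJ mror_outSpec P hcond hpN hirr hmod

/-- **S44 from the leaf package `MrmLeafSpec` (`p ≥ 5`) alone.** -/
theorem mrcl_S44_of_leaf
    (hleaf : ∀ (M : ℕ) [NeZero M] (p : ℕ) [Fact p.Prime] [NeZero p] (𝔸 : ValuationSubring FfQb)
      (hpM : ¬ p ∣ M) (h𝔸 : 𝔸.LiesOverPrime p), 5 ≤ p → MrmLeafSpec M 𝔸 hpM h𝔸)
    (P : FreyPackage) {N : ℕ} (hcond : P.IsConductorLevel N) (hpN : P.p ∣ N)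
    (hirr : GaloisRepIsIrreducible (K := AlgebraicClosure ℚ) ℚ P.freyCurve P.p)
    (hmod : P.ModularRepOfLevel N) :
    ∃ M : ℕ, M ∣ N ∧ ¬ P.p ∣ M ∧ P.ModularRepOfLevel M :=
  mrcl_S44_of_J (mrm_JSpec_of_leaf hleaf) P hcond hpN hirr hmod

/-- **S44 from the three open leaves** (exact node coordinates, (THICK), (BALANCE)) at the
`j`-atlas. -/
theorem mrcl_S44_of_three
    (h : ∀ (M : ℕ) [NeZero M] (p : ℕ) [Fact p.Prime] [NeZero p] (A : ValuationSubring Qb)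
      (hpM : ¬ p ∣ M) (hA : A.LiesOverPrime p) (h5 : 5 ≤ p) (τ' : LaurentSeries ℤ)
      (hτ' : jqModC ℤ * τ' = 1),
      (∃ E, MrmIsThick M A hpM hA (Fermat.Agent.TT.ttrli_atlas_j M A hpM hA h5 hτ') E) ∧
      MrmThickLeaf M A hpM hA (Fermat.Agent.TT.ttrli_atlas_j M A hpM hA h5 hτ') ∧
      MrmBalanceLeaf M A hpM hA (Fermat.Agent.TT.ttrli_atlas_j M A hpM hA h5 hτ'))
    (P : FreyPackage) {N : ℕ} (hcond : P.IsConductorLevel N) (hpN : P.p ∣ N)
    (hirr : GaloisRepIsIrreducible (K := AlgebraicClosure ℚ) ℚ P.freyCurve P.p)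
    (hmod : P.ModularRepOfLevel N) :
    ∃ M : ℕ, M ∣ N ∧ ¬ P.p ∣ M ∧ P.ModularRepOfLevel M :=
  mrcl_S44_of_J (mrm_JSpec_of_three h) P hcond hpN hirr hmod

/-- **S44 from (BALANCE) alone**: 4a (`MrnxGermSpec`, helper4 `mrkl_germSpec_closed` + the ascent
of helper3/19/27/28), (THICK) (helper7), (DISC) (helper23/29), (W1) (helper12) are closed. -/
theorem mrcl_S44_of_balance
    (hB : ∀ (M : ℕ) [NeZero M] (p : ℕ) [Fact p.Prime] [NeZero p] (A : ValuationSubring Qb)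
      (hpM : ¬ p ∣ M) (hA : A.LiesOverPrime p) (h5 : 5 ≤ p) (τ' : LaurentSeries ℤ)
      (hτ' : jqModC ℤ * τ' = 1),
      MrmBalanceLeaf M A hpM hA (Fermat.Agent.TT.ttrli_atlas_j M A hpM hA h5 hτ'))
    (P : FreyPackage) {N : ℕ} (hcond : P.IsConductorLevel N) (hpN : P.p ∣ N)
    (hirr : GaloisRepIsIrreducible (K := AlgebraicClosure ℚ) ℚ P.freyCurve P.p)
    (hmod : P.ModularRepOfLevel N) :
    ∃ M : ℕ, M ∣ N ∧ ¬ P.p ∣ M ∧ P.ModularRepOfLevel M :=
  mrcl_S44_of_J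
    (mrm_JSpec_of_germ_balance
      (fun M _ p _ _ A hpM hA h5 => mrkl_germSpec_closed M A hpM hA h5) hB)
    P hcond hpN hirr hmod

/-- **S44, CLOSED**: `FreyPackage.level_lowering_at_p_of_conductorLevel` (Ribet's level lowering
at `p ∥ N` for the Frey curve), from the five top-level Props of `MR/Spec.lean`, all closed:
`mri_in`, `mri_nonEis`, `mrex_E`, `mrm_JSpec_closed`, `mror_outSpec`. -/
theorem mrcl_S44
    (P : FreyPackage) {N : ℕ} (hcond : P.IsConductorLevel N) (hpN : P.p ∣ N)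
    (hirr : GaloisRepIsIrreducible (K := AlgebraicClosure ℚ) ℚ P.freyCurve P.p)
    (hmod : P.ModularRepOfLevel N) :
    ∃ M : ℕ, M ∣ N ∧ ¬ P.p ∣ M ∧ P.ModularRepOfLevel M :=
  mrcl_S44_of_J mrm_JSpec_closed P hcond hpN hirr hmod

end Fermat.Agent.MR
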