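import Fermat.Agent.MR.Spec
import Fermat.Agent.S54.ExistsFrobenius

/-!
# PROGRAM MR (S44): the top-level assembly

Owner: helper16.  `mra_S44`: the statement of S44 from the five top-level leaves of `MR/Spec.lean`,
(function form of the seam J-side → transfer-out: no Hecke operator on classes in characteristic `p`).
-/

set_option autoImplicit false

noncomputable section

namespace Fermat.Agent.MR

open Fermat.Agent.FF ModularCurve
open WeierstrassCurve WeierstrassCurve.Affine WeierstrassCurve.Affine.Point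

section transport

variable {X Z : Type} [AddCommGroup X] [DistribMulAction FfGal X] [AddCommGroup Z]
  [DistribMulAction FfGal Z]

/-- the pointwise stabiliser is transported by an equivariant isomorphism. -/
theorem mra_stab_eq (V : AddSubgroup X) (hst : ∀ σ : FfGal, ∀ x ∈ V, σ • x ∈ V)
    (φ : ↥V ≃+ Z) (hφ : ∀ (σ : FfGal) (x : ↥V), φ ⟨σ • (x : X), hst σ x x.2⟩ = σ • φ x) :
    mraStab V = mraStab (⊤ : AddSubgroup Z) := by
  ext σ
  constructor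
  · intro h z _
    obtain ⟨x, rfl⟩ := φ.surjective z
    rw [← hφ σ x]
    congr 1
    exact Subtype.ext (h x x.2)
  · intro h x hx
    have h1 := h (φ ⟨x, hx⟩) (AddSubgroup.mem_top _)
    rw [← hφ σ ⟨x, hx⟩] at h1
    exact congrArg Subtype.val (φ.injective h1)

theorem mra_H_eq (𝔸 : ValuationSubring FfQb) (V : AddSubgroup X)
    (hst : ∀ σ : FfGal, ∀ x ∈ V, σ • x ∈ V)
    (φ : ↥V ≃+ Z) (hφ : ∀ (σ : FfGal) (x : ↥V), φ ⟨σ • (x : X), hst σ x x.2⟩ = σ • φ x) :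
    mraH 𝔸 V = mraH 𝔸 (⊤ : AddSubgroup Z) := by
  unfold mraH
  rw [mra_stab_eq V hst φ hφ]

/-- the shape is transported by an equivariant isomorphism. -/
theorem mra_shape_transport (p : ℕ) (𝔸 : ValuationSubring FfQb) (V : AddSubgroup X)
    (hst : ∀ σ : FfGal, ∀ x ∈ V, σ • x ∈ V)
    (φ : ↥V ≃+ Z) (hφ : ∀ (σ : FfGal) (x : ↥V), φ ⟨σ • (x : X), hst σ x x.2⟩ = σ • φ x)
    (h : MraShape p 𝔸 (⊤ : AddSubgroup Z)) : MraShape p 𝔸 V := by
  obtain ⟨hcard, V', -, hV'card, hV'1, hV'2⟩ := h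
  refine ⟨?_, (V'.comap φ.toAddMonoidHom).map V.subtype, ?_, ?_, ?_, ?_⟩
  · rw [Nat.card_congr φ.toEquiv, ← hcard]
    exact (Nat.card_congr (AddSubgroup.topEquiv (G := Z)).toEquiv).symm
  · rintro _ ⟨x, -, rfl⟩
    exact x.2
  · rw [← hV'card]
    have e1 : ↥((V'.comap φ.toAddMonoidHom).map V.subtype) ≃ ↥(V'.comap φ.toAddMonoidHom) :=
      ((V'.comap φ.toAddMonoidHom).equivMapOfInjective V.subtype
        (AddSubgroup.subtype_injective V)).symm.toEquiv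
    have e2 : ↥(V'.comap φ.toAddMonoidHom) ≃ ↥V' :=
      { toFun := fun x => ⟨φ x.1, x.2⟩
        invFun := fun z => ⟨φ.symm z.1, by
          show φ (φ.symm z.1) ∈ V'
          rw [φ.apply_symm_apply]; exact z.2⟩
        left_inv := fun x => Subtype.ext (φ.symm_apply_apply _)
        right_inv := fun z => Subtype.ext (φ.apply_symm_apply _) }
    exact Nat.card_congr (e1.trans e2)
  · intro σ hσ x hx
    refine ⟨⟨σ • x - x, V.sub_mem (hst σ x hx) hx⟩, ?_, rfl⟩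
    show φ _ ∈ V'
    have h1 : (⟨σ • x - x, V.sub_mem (hst σ x hx) hx⟩ : ↥V) =
        ⟨σ • x, hst σ x hx⟩ - ⟨x, hx⟩ := rfl
    rw [h1, map_sub, hφ σ ⟨x, hx⟩]
    exact hV'1 σ hσ _ (AddSubgroup.mem_top _)
  · rintro σ hσ a ha _ ⟨x, hx, rfl⟩
    have h1 := hV'2 σ hσ a ha (φ x) hx
    rw [← hφ σ x, ← map_nsmul] at h1
    exact congrArg Subtype.val (φ.injective h1)

end transport

/-- **S44 from the five top-level leaves.** -/
theorem mra_S44
    (hIn : MraInSpec) (hNE : MraNonEisSpec) (hE : MraESpec) (hJ : MraJSpec)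
    (hOut : MraOutSpec)
    (P : FreyPackage) {N : ℕ} (hcond : P.IsConductorLevel N) (hpN : P.p ∣ N)
    (hirr : GaloisRepIsIrreducible (K := AlgebraicClosure ℚ) ℚ P.freyCurve P.p)
    (hmod : P.ModularRepOfLevel N) :
    ∃ M : ℕ, M ∣ N ∧ ¬ P.p ∣ M ∧ P.ModularRepOfLevel M := by
  obtain ⟨M, hM⟩ := hpN
  have hN : N = M * P.p := by rw [hM, mul_comm]
  subst hN
  have hpos : 0 < M * P.p := hcond.pos
  have hMpos : 0 < M := Nat.pos_of_mul_pos_right hpos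
  haveI : NeZero M := ⟨hMpos.ne'⟩
  haveI : NeZero (M * P.p) := ⟨hpos.ne'⟩
  have hpM : ¬ P.p ∣ M := by
    rintro ⟨M', rfl⟩
    refine hcond.sq_not_dvd P.pp ⟨M', ?_⟩
    ring
  obtain ⟨f, W, 𝔪, hf, hW, h𝔪, hp𝔪, hcong⟩ := hmod
  obtain ⟨Vb⟩ := hIn P (M * P.p) hcond ⟨M, mul_comm _ _⟩ hirr f W 𝔪 hf hW h𝔪 hp𝔪 hcong
  obtain ⟨𝔸, h𝔸⟩ := Fermat.Agent.S54.exists_valuationSubring_liesOverPrime (K := FfQb) P.pp
  obtain ⟨hsh, hp1⟩ := hE P (hcond.p_dvd_abc ⟨M, mul_comm _ _⟩) 𝔸 h𝔸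
  have hsh' : MraShape P.p 𝔸 Vb.V :=
    mra_shape_transport P.p 𝔸 Vb.V Vb.stable Vb.iso Vb.iso_smul hsh
  have hp1' : MraP1 P.p 𝔸 (mraH 𝔸 Vb.V) := by
    rw [mra_H_eq 𝔸 Vb.V Vb.stable Vb.iso Vb.iso_smul]
    exact hp1
  have hne := hNE P (M * P.p) W hpos hW hirr
  have hξ := hJ P M W hpM hcond.squarefree Vb 𝔸 h𝔸 hsh' hp1' hne
  exact ⟨M, ⟨P.p, rfl⟩, hpM, hOut P M W hpM hW 𝔸 h𝔸 hξ⟩

end Fermat.Agent.MR
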